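import Mathlib

set_option autoImplicit false

universe v u

open CategoryTheory Abelian IsLocalRing Module RingTheory.Sequence Pointwise

namespace Fermat.Agent.S57.H91

variable {R : Type u} [CommRing R] [Small.{v} R] [IsLocalRing R] [IsNoetherianRing R]

set_option backward.isDefEq.respectTransparency false in
/-- Nakayama on `Ext`: if `Ext^{i+1}(Q/xQ, N) = 0` with `x ∈ 𝔪` regular on `Q`,
then `Ext^i(Q, N) = 0`. -/
lemma subsingleton_ext_of_quotSMulTop (Q N : ModuleCat.{v} R) [Module.Finite R Q]
    [Module.Finite R N] (x : R) (reg : IsSMulRegular Q x) (mem : x ∈ maximalIdeal R) (i : ℕ)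
    (h : Subsingleton (Ext (ModuleCat.of R (QuotSMulTop x Q)) N (i + 1))) :
    Subsingleton (Ext Q N i) := by
  let S := Q.smulShortComplex x
  have hS : S.ShortExact := reg.smulShortComplex_shortExact
  have exac := Ext.contravariant_sequence_exact₁' hS N i (i + 1) (add_comm 1 i)
  have epi := exac.epi_f ((@AddCommGrpCat.isZero_of_subsingleton _ h).eq_zero_of_tgt _)
  have : S.f = x • 𝟙 Q := rfl
  simp only [S, this, AddCommGrpCat.epi_iff_surjective, AddCommGrpCat.hom_ofHom] at epi
  by_contra! ntr
  have : x ∈ (Module.annihilator R (Ext Q N i)).jacobson :=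
    (IsLocalRing.maximalIdeal_le_jacobson _) mem
  absurd Submodule.top_ne_pointwise_smul_of_mem_jacobson_annihilator this
  rw [eq_comm, eq_top_iff]
  intro y hy
  rcases epi y with ⟨z, hz⟩
  simp only [ModuleCat.smulShortComplex, Ext.mk₀_smul,
    Ext.bilinearComp_apply_apply, Ext.smul_comp, Ext.mk₀_id_comp] at hz
  simpa [← hz] using Submodule.smul_mem_pointwise_smul _ _ ⊤ trivial

/-- Lemma A: descent of `Ext`-vanishing along a weakly regular sequence in the maximal ideal. -/
lemma subsingleton_ext_of_isWeaklyRegular (N : ModuleCat.{v} R) [Module.Finite R N] (m : ℕ)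
    (H : ∀ L : ModuleCat.{v} R, Module.Finite R L →
      (∀ a ∈ maximalIdeal R, ∀ l : L, a • l = 0) → ∀ i < m, Subsingleton (Ext L N i))
    (zs : List R) (Q : ModuleCat.{v} R) [Module.Finite R Q] (reg : IsWeaklyRegular Q zs)
    (mem : ∀ z ∈ zs, z ∈ maximalIdeal R)
    (hQ : ∀ a ∈ maximalIdeal R, ∀ q : Q, a • q ∈ (Ideal.ofList zs • ⊤ : Submodule R Q))
    (i : ℕ) (hi : i + zs.length < m) : Subsingleton (Ext Q N i) := by
  induction zs generalizing Q i with
  | nil =>
    refine H Q inferInstance (fun a ha l => ?_) i (by simpa using hi)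
    have h := hQ a ha l
    rwa [Ideal.ofList_nil, Submodule.bot_smul, Submodule.mem_bot] at h
  | cons z zs ih =>
    rw [isWeaklyRegular_cons_iff] at reg
    have hz : z ∈ maximalIdeal R := mem z List.mem_cons_self
    refine subsingleton_ext_of_quotSMulTop Q N z reg.1 hz i ?_
    refine ih (ModuleCat.of R (QuotSMulTop z Q)) reg.2
      (fun y hy => mem y (List.mem_cons_of_mem _ hy)) ?_ (i + 1)
      (by simp only [List.length_cons] at hi; omega)
    intro a ha q
    obtain ⟨q, rfl⟩ := Submodule.Quotient.mk_surjective _ q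
    have h1 := hQ a ha q
    rw [Ideal.ofList_cons_smul] at h1
    have h2 : (z • (⊤ : Submodule R Q) ⊔ Ideal.ofList zs • ⊤).map (z • (⊤ : Submodule R Q)).mkQ
        = Ideal.ofList zs • ⊤ := by
      rw [Submodule.map_sup, Submodule.mkQ_map_self, bot_sup_eq, Submodule.map_smul'',
        Submodule.map_top, Submodule.range_mkQ]
    rw [← h2]
    exact Submodule.mem_map_of_mem h1

end Fermat.Agent.S57.H91
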