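import Mathlib
import Fermat.Agent.S57.H91.ExtDescent

set_option autoImplicit false

universe u

open CategoryTheory Abelian IsLocalRing Module RingTheory.Sequence Pointwise

namespace Fermat.Agent.S57.H91

section

variable {B : Type u} [CommRing B] [IsLocalRing B] [IsNoetherianRing B]

/-- `Ext` out of modules killed by the maximal ideal vanishes below the length of a regular
sequence (Rees). -/
lemma ext_vanishing_of_isWeaklyRegular (N : Type u) [AddCommGroup N] [Module B N]
    [Module.Finite B N] [Nontrivial N] (ys : List B) (hys : IsWeaklyRegular N ys)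
    (hym : ∀ y ∈ ys, y ∈ maximalIdeal B) :
    ∀ L : ModuleCat.{u} B, Module.Finite B L →
      (∀ a ∈ maximalIdeal B, ∀ l : L, a • l = 0) →
        ∀ i < ys.length, Subsingleton (Ext L (ModuleCat.of B N) i) := by
  intro L hL hann i hi
  rcases subsingleton_or_nontrivial L with hsub | hnt
  · have := (ModuleCat.isZero_of_subsingleton L).hasProjectiveDimensionLT_zero
    exact HasProjectiveDimensionLT.subsingleton L 0 i (Nat.zero_le i) _
  · have smul_lt : maximalIdeal B • (⊤ : Submodule B (ModuleCat.of B N)) < ⊤ :=
      Ne.lt_top (Submodule.top_ne_ideal_smul_of_le_jacobson_annihilator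
        (maximalIdeal_le_jacobson _)).symm
    have h41 := (ModuleCat.exists_isRegular_tfae (maximalIdeal B) ys.length
      (ModuleCat.of B N) smul_lt).out 3 0
    have hreg : IsRegular N ys := IsRegular.of_isWeaklyRegular_of_mem_maximalIdeal N hym hys
    refine h41.mp ⟨ys, rfl, hym, hreg⟩ L hnt hL ?_ i hi
    intro p hp
    rw [PrimeSpectrum.mem_zeroLocus]
    refine le_trans ?_ (Module.mem_support_iff_of_finite.mp hp)
    intro a ha
    exact Module.mem_annihilator.mpr (hann a ha)

/-- Step (2): the first element of a regular sequence generating the maximal ideal is regular on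
a finite module of maximal depth. -/
lemma isSMulRegular_head (N : Type u) [AddCommGroup N] [Module B N]
    [Module.Finite B N] [Nontrivial N] (x : B) (xs ys : List B)
    (hxs : IsWeaklyRegular B (x :: xs))
    (hxm : Ideal.ofList (x :: xs) = maximalIdeal B)
    (hys : IsWeaklyRegular N ys) (hym : ∀ y ∈ ys, y ∈ maximalIdeal B)
    (hlen : ys.length = xs.length + 1) : IsSMulRegular N x := by
  have H := ext_vanishing_of_isWeaklyRegular N ys hys hym
  rw [isWeaklyRegular_cons_iff] at hxs
  have hmem : ∀ z ∈ x :: xs, z ∈ maximalIdeal B := fun z hz => by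
    rw [← hxm]; exact Ideal.subset_span hz
  have hsub : Subsingleton (Ext (ModuleCat.of B (QuotSMulTop x B)) (ModuleCat.of B N) 0) := by
    refine subsingleton_ext_of_isWeaklyRegular (ModuleCat.of B N) ys.length H xs
      (ModuleCat.of B (QuotSMulTop x B)) hxs.2 (fun z hz => hmem z (List.mem_cons_of_mem _ hz))
      ?_ 0 (by omega)
    intro a ha q
    rw [← hxm, Ideal.ofList_cons] at ha
    obtain ⟨a1, ha1, a2, ha2, rfl⟩ := Submodule.mem_sup.mp ha
    have h1 : a1 • q = 0 := by
      obtain ⟨c, rfl⟩ := Ideal.mem_span_singleton'.mp ha1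
      rw [mul_smul]
      have := Module.mem_annihilator.mp (QuotSMulTop.mem_annihilator B x) q
      change c • x • q = 0
      rw [this, smul_zero]
    rw [add_smul, h1, zero_add]
    exact Submodule.smul_mem_smul ha2 Submodule.mem_top
  have hsub1 : Subsingleton (ModuleCat.of B (QuotSMulTop x B) ⟶ ModuleCat.of B N) :=
    Ext.addEquiv₀.subsingleton_congr.mp hsub
  have hsub2 : Subsingleton (QuotSMulTop x B →ₗ[B] N) :=
    (ModuleCat.homAddEquiv (M := ModuleCat.of B (QuotSMulTop x B))
      (N := ModuleCat.of B N)).symm.subsingleton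
  rw [isSMulRegular_iff_right_eq_zero_of_smul]
  intro u hu
  let f : B →ₗ[B] N := LinearMap.toSpanSingleton B N u
  have hle : x • (⊤ : Submodule B B) ≤ LinearMap.ker f := by
    intro b hb
    obtain ⟨c, -, rfl⟩ := (Submodule.mem_smul_pointwise_iff_exists _ _ _).mp hb
    simp [f, mul_smul, smul_comm x c u, hu]
  have h0 : Submodule.liftQ _ f hle = 0 := Subsingleton.elim _ _
  have h1 : Submodule.liftQ _ f hle (Submodule.Quotient.mk 1) = f 1 := Submodule.liftQ_apply _ _ _
  have h2 : f 1 = u := by simp [f]
  rw [← h2, ← h1, h0, LinearMap.zero_apply]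

/-- Step (3): depth drops by exactly one modulo a regular element (via Rees). -/
lemma exists_isWeaklyRegular_quotSMulTop (N : Type u) [AddCommGroup N] [Module B N]
    [Module.Finite B N] [Nontrivial N] (x : B) (hx : x ∈ maximalIdeal B)
    (hreg : IsSMulRegular N x) (ys : List B) (hys : IsWeaklyRegular N ys)
    (hym : ∀ y ∈ ys, y ∈ maximalIdeal B) (n : ℕ) (hlen : ys.length = n + 1) :
    ∃ ys' : List B, ys'.length = n ∧ (∀ y ∈ ys', y ∈ maximalIdeal B) ∧
      IsWeaklyRegular (QuotSMulTop x N) ys' := by
  have smul_lt : maximalIdeal B • (⊤ : Submodule B (ModuleCat.of B N)) < ⊤ :=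
    Ne.lt_top (Submodule.top_ne_ideal_smul_of_le_jacobson_annihilator
      (maximalIdeal_le_jacobson _)).symm
  have h42 := (ModuleCat.exists_isRegular_tfae (maximalIdeal B) (n + 1)
    (ModuleCat.of B N) smul_lt).out 3 1
  have hregN : IsRegular N ys := IsRegular.of_isWeaklyRegular_of_mem_maximalIdeal N hym hys
  have h_ext := h42.mp ⟨ys, hlen, hym, hregN⟩
  have hntQ : Nontrivial (QuotSMulTop x N) := nontrivial_quotSMulTop_of_mem_maximalIdeal N hx
  have smul_lt' : maximalIdeal B • (⊤ : Submodule B (ModuleCat.of B (QuotSMulTop x N))) < ⊤ :=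
    Ne.lt_top (Submodule.top_ne_ideal_smul_of_le_jacobson_annihilator
      (maximalIdeal_le_jacobson _)).symm
  have h_ext' : ∀ i < n, Subsingleton (Ext (ModuleCat.of B (Shrink.{u} (B ⧸ maximalIdeal B)))
      (ModuleCat.of B (QuotSMulTop x N)) i) := by
    intro i hi
    have zero1 := AddCommGrpCat.isZero_of_iff_subsingleton.mpr (h_ext i (by omega))
    have zero2 := AddCommGrpCat.isZero_of_iff_subsingleton.mpr (h_ext (i + 1) (by omega))
    have hS : (ModuleCat.smulShortComplex (ModuleCat.of B N) x).ShortExact :=
      IsSMulRegular.smulShortComplex_shortExact (M := ModuleCat.of B N) hreg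
    exact AddCommGrpCat.subsingleton_of_isZero <| ShortComplex.Exact.isZero_of_both_zeros
      ((Ext.covariant_sequence_exact₃' (ModuleCat.of B (Shrink.{u} (B ⧸ maximalIdeal B)))
        hS) i (i + 1) rfl)
      (zero1.eq_zero_of_src _) (zero2.eq_zero_of_tgt _)
  have h24 := (ModuleCat.exists_isRegular_tfae (maximalIdeal B) n
    (ModuleCat.of B (QuotSMulTop x N)) smul_lt').out 1 3
  obtain ⟨ys', hl, hm, hr⟩ := h24.mp h_ext'
  exact ⟨ys', hl, hm, hr.toIsWeaklyRegular⟩

end

/-- Main induction: over a Noetherian local ring whose maximal ideal is generated by a regular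
sequence of length `n`, a finite module admitting a regular sequence of length `n` in the maximal
ideal is free. -/
theorem free_of_isWeaklyRegular_aux (n : ℕ) : ∀ (B : Type u) [CommRing B] [IsLocalRing B]
    [IsNoetherianRing B] (N : Type u) [AddCommGroup N] [Module B N] [Module.Finite B N]
    (xs ys : List B), xs.length = n → IsWeaklyRegular B xs →
    Ideal.ofList xs = maximalIdeal B → IsWeaklyRegular N ys →
    (∀ y ∈ ys, y ∈ maximalIdeal B) → ys.length = n → Module.Free B N := by
  induction n with
  | zero =>
    intro B _ _ _ N _ _ _ xs ys hxl hxs hxm hys hym hyl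
    have : xs = [] := List.length_eq_zero_iff.mp hxl
    subst this
    rw [Ideal.ofList_nil] at hxm
    have isf : IsField B := IsLocalRing.isField_iff_maximalIdeal_eq.mpr hxm.symm
    let := isf.toField
    exact Module.Free.of_divisionRing B N
  | succ n ih =>
    intro B _ _ _ N _ _ _ xs ys hxl hxs hxm hys hym hyl
    rcases subsingleton_or_nontrivial N with hsub | hnt
    · exact Module.Free.of_subsingleton B N
    match xs, hxl, hxs, hxm with
    | x :: xs, hxl, hxs, hxm =>
    have hxl' : xs.length = n := by simpa using hxl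
    have hx : x ∈ maximalIdeal B := by rw [← hxm]; exact Ideal.subset_span List.mem_cons_self
    have hreg : IsSMulRegular N x :=
      isSMulRegular_head N x xs ys hxs hxm hys hym (by omega)
    obtain ⟨ys', hl', hm', hr'⟩ := exists_isWeaklyRegular_quotSMulTop N x hx hreg ys hys hym n hyl
    -- ring change
    have hne : Ideal.span {x} ≠ ⊤ := fun h => (maximalIdeal.isMaximal B).ne_top
      (top_le_iff.mp (h ▸ (Ideal.span_singleton_le_iff_mem _).mpr hx))
    have : Nontrivial (B ⧸ Ideal.span {x}) := Ideal.Quotient.nontrivial_iff.mpr hne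
    have : IsLocalRing (B ⧸ Ideal.span {x}) :=
      IsLocalRing.of_surjective' (Ideal.Quotient.mk _) Ideal.Quotient.mk_surjective
    have := IsLocalHom.of_surjective (Ideal.Quotient.mk (Ideal.span {x}))
      Ideal.Quotient.mk_surjective
    have hmax : (maximalIdeal B).map (Ideal.Quotient.mk (Ideal.span {x})) =
        maximalIdeal (B ⧸ Ideal.span {x}) := by
      ext y
      obtain ⟨y, rfl⟩ := Ideal.Quotient.mk_surjective y
      simp [sup_eq_left.mpr (le_maximalIdeal hne)]
    have := Module.Finite.of_restrictScalars_finite B (B ⧸ Ideal.span {x}) (QuotSMulTop x N)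
    have hfree : Module.Free (B ⧸ Ideal.span {x}) (QuotSMulTop x N) := by
      refine ih (B ⧸ Ideal.span {x}) (QuotSMulTop x N)
        (xs.map (Ideal.Quotient.mk (Ideal.span {x})))
        (ys'.map (Ideal.Quotient.mk (Ideal.span {x}))) ?_ ?_ ?_ ?_ ?_ ?_
      · simpa using hxl'
      · have h1 := ((isWeaklyRegular_cons_iff B x xs).mp hxs).2
        have heq : x • (⊤ : Submodule B B) = Ideal.span {x} := by
          rw [← Submodule.ideal_span_singleton_smul x ⊤, smul_eq_mul, Ideal.mul_top]
        have h2 : IsWeaklyRegular (B ⧸ Ideal.span {x}) xs :=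
          ((Submodule.quotEquivOfEq _ _ heq).isWeaklyRegular_congr xs).mp h1
        exact (isWeaklyRegular_map_algebraMap_iff (B ⧸ Ideal.span {x})
          (B ⧸ Ideal.span {x}) xs).mpr h2
      · rw [← Ideal.map_ofList, ← hmax, ← hxm, Ideal.ofList_cons, Ideal.map_sup]
        have : Ideal.map (Ideal.Quotient.mk (Ideal.span {x})) (Ideal.span {x}) = ⊥ := by
          rw [Ideal.map_eq_bot_iff_le_ker, Ideal.mk_ker]
        rw [this, bot_sup_eq]
      · exact (isWeaklyRegular_map_algebraMap_iff (B ⧸ Ideal.span {x})
          (QuotSMulTop x N) ys').mpr hr'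
      · intro y hy
        obtain ⟨y', hy', rfl⟩ := List.mem_map.mp hy
        rw [← hmax]
        exact Ideal.mem_map_of_mem _ (hm' y' hy')
      · simpa using hl'
    have : Module.FinitePresentation B N := Module.finitePresentation_of_finite B N
    exact (Module.free_quotSMulTop_iff_free B N
      (by rw [IsLocalRing.jacobson_eq_maximalIdeal ⊥ bot_ne_top]; exact hx) hreg).mp hfree

/-- A finitely generated module over a Noetherian local ring `B` whose maximal ideal is generated
by a `B`-regular sequence `xs` is free as soon as it admits a (weakly) regular sequence of the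
same length inside the maximal ideal. -/
theorem free_of_isWeaklyRegular {B : Type u} [CommRing B] [IsLocalRing B] [IsNoetherianRing B]
    {N : Type u} [AddCommGroup N] [Module B N] [Module.Finite B N] (xs ys : List B)
    (hxs : IsWeaklyRegular B xs) (hxm : Ideal.ofList xs = maximalIdeal B)
    (hys : IsWeaklyRegular N ys) (hym : ∀ y ∈ ys, y ∈ maximalIdeal B)
    (hlen : ys.length = xs.length) : Module.Free B N :=
  free_of_isWeaklyRegular_aux xs.length B N xs ys rfl hxs hxm hys hym hlen

end Fermat.Agent.S57.H91
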